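/-
S16 / weak Swinnerton-Dyer (helper12).  Part 1: the operator `θ = q d/dq` on power series,
the derivation `∂` (`∂Q = -4R`, `∂R = -6Q²`) and the Euler operator on `κ[Q,R]`, and the identity
`12 θ(P(Qs,Rs)) = (∂P)(Qs,Rs) + Ps · (E P)(Qs,Rs)` coming from Ramanujan's identities.
-/
import Mathlib

set_option autoImplicit false

namespace Fermat.Agent.S16.SwD12

open MvPolynomial

noncomputable section

variable {κ : Type*} [CommRing κ]

/-- `θ = q d/dq` on power series. -/
def theta (f : PowerSeries κ) : PowerSeries κ :=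
  PowerSeries.mk fun n => (n : κ) * PowerSeries.coeff n f

@[simp] lemma coeff_theta (n : ℕ) (f : PowerSeries κ) :
    PowerSeries.coeff n (theta f) = (n : κ) * PowerSeries.coeff n f := by
  simp [theta]

lemma theta_add (f g : PowerSeries κ) : theta (f + g) = theta f + theta g := by
  ext n; simp [mul_add]

lemma theta_sub (f g : PowerSeries κ) : theta (f - g) = theta f - theta g := by
  ext n; simp [mul_sub]

@[simp] lemma theta_zero : theta (0 : PowerSeries κ) = 0 := by
  ext n; simp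

@[simp] lemma theta_C (a : κ) : theta (PowerSeries.C a) = 0 := by
  ext n
  rcases n with _ | n
  · simp
  · simp

@[simp] lemma theta_one : theta (1 : PowerSeries κ) = 0 := by
  have := theta_C (1 : κ)
  simpa using this

lemma theta_mul (f g : PowerSeries κ) : theta (f * g) = theta f * g + f * theta g := by
  ext n
  simp only [coeff_theta, PowerSeries.coeff_mul, map_add, Finset.mul_sum]
  rw [← Finset.sum_add_distrib]
  refine Finset.sum_congr rfl fun p hp => ?_
  have h : p.1 + p.2 = n := Finset.HasAntidiagonal.mem_antidiagonal.mp hp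
  have : (n : κ) = (p.1 : κ) + (p.2 : κ) := by rw [← h]; push_cast; ring
  rw [this]; ring

lemma constantCoeff_theta (f : PowerSeries κ) : PowerSeries.constantCoeff (theta f) = 0 := by
  rw [← PowerSeries.coeff_zero_eq_constantCoeff_apply, coeff_theta]; simp

lemma theta_smul (a : κ) (f : PowerSeries κ) : theta (a • f) = a • theta f := by
  ext n; simp; ring

/-- the two-variable polynomial ring `κ[Q,R]`, `Q = X 0`, `R = X 1`. -/
abbrev QR (κ : Type*) [CommRing κ] := MvPolynomial (Fin 2) κ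

/-- weights of `Q = E₄` and `R = E₆`. -/
def wt : Fin 2 → ℕ := ![4, 6]

@[simp] lemma wt_zero : wt 0 = 4 := rfl
@[simp] lemma wt_one : wt 1 = 6 := rfl

/-- The Ramanujan–Serre derivation `∂Q = -4R`, `∂R = -6Q²`. -/
def dd (P : QR κ) : QR κ := -4 * X 1 * pderiv 0 P - 6 * X 0 ^ 2 * pderiv 1 P

/-- The Euler (weight) operator `E Q = 4Q`, `E R = 6R`. -/
def eu (P : QR κ) : QR κ := 4 * X 0 * pderiv 0 P + 6 * X 1 * pderiv 1 P

lemma dd_add (P P' : QR κ) : dd (P + P') = dd P + dd P' := by
  simp only [dd, map_add]; ring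

lemma dd_mul (P P' : QR κ) : dd (P * P') = dd P * P' + P * dd P' := by
  simp only [dd, Derivation.leibniz, smul_eq_mul]; ring

@[simp] lemma dd_C (a : κ) : dd (C a : QR κ) = 0 := by simp [dd]

@[simp] lemma dd_zero : dd (0 : QR κ) = 0 := by simp [dd]

@[simp] lemma dd_one : dd (1 : QR κ) = 0 := by
  have := dd_C (κ := κ) 1
  simpa using this

lemma dd_neg (P : QR κ) : dd (-P) = -dd P := by
  simp only [dd, map_neg]; ring

lemma dd_sub (P P' : QR κ) : dd (P - P') = dd P - dd P' := by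
  simp only [dd, map_sub]; ring

lemma dd_C_mul (a : κ) (P : QR κ) : dd (C a * P) = C a * dd P := by
  rw [dd_mul, dd_C]; ring

@[simp] lemma dd_X0 : dd (X 0 : QR κ) = -4 * X 1 := by
  simp [dd, pderiv_X]

@[simp] lemma dd_X1 : dd (X 1 : QR κ) = -6 * X 0 ^ 2 := by
  simp [dd, pderiv_X]

lemma dd_pow (P : QR κ) (n : ℕ) : dd (P ^ n) = (n : QR κ) * P ^ (n - 1) * dd P := by
  induction n with
  | zero => simp
  | succ n ih =>
    rw [pow_succ, dd_mul, ih]
    rcases n with _ | n
    · simp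
    · simp only [Nat.add_sub_cancel, Nat.cast_add, Nat.cast_one]
      rw [pow_succ]; ring

lemma eu_add (P P' : QR κ) : eu (P + P') = eu P + eu P' := by
  simp only [eu, map_add]; ring

lemma eu_mul (P P' : QR κ) : eu (P * P') = eu P * P' + P * eu P' := by
  simp only [eu, Derivation.leibniz, smul_eq_mul]; ring

@[simp] lemma eu_C (a : κ) : eu (C a : QR κ) = 0 := by simp [eu]

@[simp] lemma eu_X0 : eu (X 0 : QR κ) = 4 * X 0 := by
  simp [eu, pderiv_X]

@[simp] lemma eu_X1 : eu (X 1 : QR κ) = 6 * X 1 := by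
  simp [eu, pderiv_X]

/-- Euler's identity for isobaric polynomials. -/
lemma eu_of_isobaric {k : ℕ} {P : QR κ} (h : IsWeightedHomogeneous wt P k) :
    eu P = (k : QR κ) * P := by
  have := h.sum_weight_X_mul_pderiv
  rw [Fin.sum_univ_two] at this
  simp only [wt_zero, wt_one, nsmul_eq_mul] at this
  rw [eu, ← this]; push_cast; ring

/-- evaluation at a pair of power series. -/
def ev (Qs Rs : PowerSeries κ) : QR κ →ₐ[κ] PowerSeries κ := aeval ![Qs, Rs]

@[simp] lemma ev_X0 (Qs Rs : PowerSeries κ) : ev Qs Rs (X 0) = Qs := by simp [ev]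
@[simp] lemma ev_X1 (Qs Rs : PowerSeries κ) : ev Qs Rs (X 1) = Rs := by simp [ev]
@[simp] lemma ev_C (Qs Rs : PowerSeries κ) (a : κ) : ev Qs Rs (C a) = PowerSeries.C a := by
  simp [ev]

/-- **Ramanujan.**  If `12θQs = 4(Ps Qs - Rs)` and `12θRs = 6(Ps Rs - Qs²)` then for every
polynomial `12 θ(P(Qs,Rs)) = (∂P)(Qs,Rs) + Ps·(EP)(Qs,Rs)`. -/
theorem twelve_theta_ev {Ps Qs Rs : PowerSeries κ}
    (hQ : 12 * theta Qs = 4 * (Ps * Qs - Rs))
    (hR : 12 * theta Rs = 6 * (Ps * Rs - Qs ^ 2)) (P : QR κ) :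
    12 * theta (ev Qs Rs P) = ev Qs Rs (dd P) + Ps * ev Qs Rs (eu P) := by
  induction P using MvPolynomial.induction_on with
  | C a => simp
  | add p q hp hq =>
    rw [map_add, theta_add, dd_add, eu_add, map_add, map_add, mul_add, hp, hq]; ring
  | mul_X p i hp =>
    rw [map_mul, theta_mul, dd_mul, eu_mul, map_add, map_add, map_mul, map_mul, map_mul, map_mul]
    have key : 12 * theta (ev Qs Rs (X i)) =
        ev Qs Rs (dd (X i)) + Ps * ev Qs Rs (eu (X i)) := by
      fin_cases i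
      · simp only [Fin.zero_eta, ev_X0, dd_X0, eu_X0, map_mul, map_neg, ev_X1]
        rw [hQ]
        have h4 : ev Qs Rs (4 : QR κ) = 4 := map_ofNat _ 4
        rw [h4]; ring
      · simp only [Fin.mk_one, ev_X1, dd_X1, eu_X1, map_mul, map_neg, map_pow, ev_X0]
        rw [hR]
        have h6 : ev Qs Rs (6 : QR κ) = 6 := map_ofNat _ 6
        rw [h6]; ring
    have e1 : 12 * (theta (ev Qs Rs p) * ev Qs Rs (X i) + ev Qs Rs p * theta (ev Qs Rs (X i))) =
        (12 * theta (ev Qs Rs p)) * ev Qs Rs (X i) +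
          ev Qs Rs p * (12 * theta (ev Qs Rs (X i))) := by ring
    rw [e1, hp, key]; ring

/-- For an isobaric polynomial of weight `k`: `12 θ(P(q)) = (∂P)(q) + k·Ps·P(q)`. -/
theorem twelve_theta_ev_isobaric {Ps Qs Rs : PowerSeries κ}
    (hQ : 12 * theta Qs = 4 * (Ps * Qs - Rs))
    (hR : 12 * theta Rs = 6 * (Ps * Rs - Qs ^ 2)) {k : ℕ} {P : QR κ}
    (hP : IsWeightedHomogeneous wt P k) :
    12 * theta (ev Qs Rs P) = ev Qs Rs (dd P) + (k : PowerSeries κ) * Ps * ev Qs Rs P := by
  rw [twelve_theta_ev hQ hR, eu_of_isobaric hP, map_mul, map_natCast]; ring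

end

end Fermat.Agent.S16.SwD12
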