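/-
S16 / weak Swinnerton-Dyer (helper12).  Part 2: isobaric polynomials in `κ[Q,R]` (weights 4, 6):
`∂` raises the weight by 2, degree bounds, the peeling lemma `P(1,1) = 0 ⇒ (Q³-R²) ∣ P` and the
`q`-expansion principle (injectivity of evaluation on a fixed weight).
-/
import Fermat.Agent.S16.SwD12.Theta

set_option autoImplicit false

namespace Fermat.Agent.S16.SwD12

open MvPolynomial

noncomputable section

variable {κ : Type*} [CommRing κ]

/-- isobaric of weight `k` (weights `4, 6`). -/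
abbrev Iso (k : ℕ) (P : QR κ) : Prop := IsWeightedHomogeneous wt P k

lemma weight_eq (d : Fin 2 →₀ ℕ) : Finsupp.weight wt d = 4 * d 0 + 6 * d 1 := by
  rw [Finsupp.weight_apply, Finsupp.sum_fintype _ _ (by intro i; simp), Fin.sum_univ_two]
  simp [mul_comm]

lemma iso_X0 : Iso (κ := κ) 4 (X 0) := isWeightedHomogeneous_X _ _ 0
lemma iso_X1 : Iso (κ := κ) 6 (X 1) := isWeightedHomogeneous_X _ _ 1
lemma iso_C (a : κ) : Iso 0 (C a) := isWeightedHomogeneous_C _ _

lemma Iso.of_eq {k k' : ℕ} {P : QR κ} (h : Iso k P) (e : k = k') : Iso k' P := e ▸ h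

/-- monomials in the support of an isobaric polynomial. -/
lemma Iso.weight_of_mem {k : ℕ} {P : QR κ} (h : Iso k P) {d : Fin 2 →₀ ℕ} (hd : d ∈ P.support) :
    4 * d 0 + 6 * d 1 = k := by
  rw [← weight_eq]; exact h (mem_support_iff.mp hd)

lemma Iso.pderiv0_eq_zero {k : ℕ} {P : QR κ} (h : Iso k P) (hk : k < 4) : pderiv 0 P = 0 := by
  apply pderiv_eq_zero_of_notMem_vars
  intro h0
  obtain ⟨d, hd, hd0⟩ := (mem_vars_iff_mem_support (i := (0 : Fin 2))).mp h0
  have := h.weight_of_mem hd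
  have h1 : d 0 ≠ 0 := Finsupp.mem_support_iff.mp hd0
  omega

lemma Iso.pderiv1_eq_zero {k : ℕ} {P : QR κ} (h : Iso k P) (hk : k < 6) : pderiv 1 P = 0 := by
  apply pderiv_eq_zero_of_notMem_vars
  intro h0
  obtain ⟨d, hd, hd0⟩ := (mem_vars_iff_mem_support (i := (1 : Fin 2))).mp h0
  have := h.weight_of_mem hd
  have h1 : d 1 ≠ 0 := Finsupp.mem_support_iff.mp hd0
  omega

/-- `∂` raises the weight by `2`. -/
lemma Iso.dd {k : ℕ} {P : QR κ} (h : Iso k P) : Iso (k + 2) (dd P) := by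
  unfold SwD12.dd
  apply IsWeightedHomogeneous.sub
  · by_cases hk : k < 4
    · rw [h.pderiv0_eq_zero hk, mul_zero]; exact isWeightedHomogeneous_zero _ _ _
    · have h1 : Iso (k - 4) (pderiv 0 P) := IsWeightedHomogeneous.pderiv h (by simp; omega)
      have h2 : Iso (0 + 6) ((-4 : QR κ) * X 1) := by
        have : (-4 : QR κ) = C (-4) := by rw [map_neg, map_ofNat]
        rw [this]; exact (iso_C _).mul iso_X1
      exact Iso.of_eq (h2.mul h1) (by omega)
  · by_cases hk : k < 6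
    · rw [h.pderiv1_eq_zero hk, mul_zero]; exact isWeightedHomogeneous_zero _ _ _
    · have h1 : Iso (k - 6) (pderiv 1 P) := IsWeightedHomogeneous.pderiv h (by simp; omega)
      have h2 : Iso (0 + 4 * 2) ((6 : QR κ) * X 0 ^ 2) := by
        have : (6 : QR κ) = C 6 := by rw [map_ofNat]
        rw [this]; exact (iso_C _).mul (iso_X0.pow 2)
      exact Iso.of_eq (h2.mul h1) (by omega)

/-- degree bound. -/
lemma Iso.totalDegree_le {k : ℕ} {P : QR κ} (h : Iso k P) : 4 * P.totalDegree ≤ k := by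
  rw [totalDegree]
  rcases P.support.eq_empty_or_nonempty with he | hne
  · simp [he]
  · obtain ⟨d, hd, hmax⟩ := Finset.exists_mem_eq_sup P.support hne
      (fun s => s.sum fun _ e => e)
    rw [hmax]
    have := h.weight_of_mem hd
    rw [Finsupp.sum_fintype _ _ (by intro i; rfl), Fin.sum_univ_two]
    omega

lemma Iso.eq_C_of_weight_zero {P : QR κ} (h : Iso 0 P) : P = C (coeff 0 P) := by
  apply totalDegree_eq_zero_iff_eq_C.mp
  have := h.totalDegree_le; omega

/-- no isobaric polynomials of weight `2` (nor of any weight with no monomial). -/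
lemma Iso.eq_zero_of_weight_two {P : QR κ} (h : Iso 2 P) : P = 0 := by
  by_contra hP
  obtain ⟨d, hd⟩ := (support_nonempty.mpr hP)
  have := h.weight_of_mem hd
  omega

lemma Iso.eq_zero_of_lt_four {k : ℕ} {P : QR κ} (h : Iso k P) (h0 : 0 < k) (h4 : k < 4) :
    P = 0 := by
  by_contra hP
  obtain ⟨d, hd⟩ := (support_nonempty.mpr hP)
  have := h.weight_of_mem hd
  omega

end

end Fermat.Agent.S16.SwD12

namespace Fermat.Agent.S16.SwD12

open MvPolynomial

noncomputable section

variable {κ : Type*} [CommRing κ]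

/-- the normal monomial of weight `k` (`R`-exponent `≤ 1`). -/
def normMon (k : ℕ) : QR κ := X 0 ^ ((k - 6 * ((k / 2) % 2)) / 4) * X 1 ^ ((k / 2) % 2)

/-- geometric sum: `(Q³)^t - (R²)^t = (Q³ - R²) G_t`. -/
def geomG (t : ℕ) : QR κ :=
  ∑ i ∈ Finset.range t, (X 0 ^ 3) ^ i * (X 1 ^ 2) ^ (t - 1 - i)

lemma geomG_mul (t : ℕ) : (geomG t : QR κ) * (X 0 ^ 3 - X 1 ^ 2) = (X 0 ^ 3) ^ t - (X 1 ^ 2) ^ t :=
  (Commute.all _ _).geom_sum₂_mul t

lemma iso_geomG (t k' : ℕ) (h : k' + 12 = 12 * t) : Iso (κ := κ) k' (geomG t) := by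
  apply IsWeightedHomogeneous.sum
  intro i hi
  have hi' : i < t := Finset.mem_range.mp hi
  have h1 : Iso (κ := κ) (4 * 3 * i) ((X 0 ^ 3) ^ i) := by
    have := ((iso_X0 (κ := κ)).pow 3).pow i
    exact Iso.of_eq this (by ring)
  have h2 : Iso (κ := κ) (6 * 2 * (t - 1 - i)) ((X 1 ^ 2) ^ (t - 1 - i)) := by
    have := ((iso_X1 (κ := κ)).pow 2).pow (t - 1 - i)
    exact Iso.of_eq this (by ring)
  exact Iso.of_eq (h1.mul h2) (by omega)

/-- **Peeling lemma.** -/
lemma Iso.peel {k : ℕ} {P : QR κ} (h : Iso k P) :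
    ∃ G : QR κ, (∀ k', k' + 12 = k → Iso k' G) ∧ (k < 12 → G = 0) ∧
      P = C (eval (fun _ => (1 : κ)) P) * normMon k + (X 0 ^ 3 - X 1 ^ 2) * G := by
  induction h using IsWeightedHomogeneous.induction_on with
  | zero => exact ⟨0, fun _ _ => isWeightedHomogeneous_zero _ _ _, fun _ => rfl, by simp⟩
  | add p q hp hq ihp ihq =>
    obtain ⟨G₁, h1, h1', e1⟩ := ihp
    obtain ⟨G₂, h2, h2', e2⟩ := ihq
    refine ⟨G₁ + G₂, fun k' hk' => (h1 k' hk').add (h2 k' hk'), fun hk => ?_, ?_⟩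
    · rw [h1' hk, h2' hk, add_zero]
    · conv_lhs => rw [e1, e2]
      rw [map_add, map_add]; ring
  | monomial d r hr =>
    rw [weight_eq] at hr
    set a := d 0 with ha
    set b := d 1 with hb
    have hmon : (monomial d r : QR κ) = C r * (X 0 ^ a * X 1 ^ b) := by
      rw [monomial_eq, Finsupp.prod_fintype _ _ (by intro i; simp), Fin.prod_univ_two]
    have hev : eval (fun _ => (1 : κ)) (monomial d r : QR κ) = r := by
      rw [hmon]; simp
    set t := b / 2 with ht
    have hb2 : b = 2 * t + (k / 2) % 2 := by omega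
    have ha2 : (k - 6 * ((k / 2) % 2)) / 4 = a + 3 * t := by omega
    refine ⟨-(C r * (X 0 ^ a * X 1 ^ ((k / 2) % 2)) * geomG t), fun k' hk' => ?_, fun hk => ?_, ?_⟩
    · have hg : Iso (κ := κ) (12 * t - 12) (geomG t) := by
        rcases Nat.eq_zero_or_pos t with h0 | h0
        · rw [h0]; simp [geomG]; exact isWeightedHomogeneous_zero _ _ _
        · exact iso_geomG t _ (by omega)
      have hm : Iso (κ := κ) (0 + (4 * a + 6 * ((k / 2) % 2)))
          (C r * (X 0 ^ a * X 1 ^ ((k / 2) % 2))) :=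
        Iso.of_eq ((iso_C r).mul (((iso_X0 (κ := κ)).pow a).mul
          ((iso_X1 (κ := κ)).pow ((k / 2) % 2)))) (by simp [mul_comm])
      rcases Nat.eq_zero_or_pos t with h0 | h0
      · rw [h0]; simp [geomG]; exact isWeightedHomogeneous_zero _ _ _
      · exact Iso.of_eq (hm.mul hg).neg (by omega)
    · have : t = 0 := by omega
      rw [this]; simp [geomG]
    · rw [hev, hmon, normMon, ha2]
      have e : (X 1 : QR κ) ^ b = X 1 ^ ((k / 2) % 2) * (X 1 ^ 2) ^ t := by
        rw [← pow_mul, ← pow_add]; congr 1; omega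
      have e' : (X 0 : QR κ) ^ (a + 3 * t) = X 0 ^ a * (X 0 ^ 3) ^ t := by
        rw [← pow_mul, ← pow_add]
      rw [e, e']
      have := geomG_mul (κ := κ) t
      linear_combination (C r * (X 0 ^ a * X 1 ^ ((k / 2) % 2))) * this

lemma constantCoeff_ev {Qs Rs : PowerSeries κ} (hQ0 : PowerSeries.constantCoeff Qs = 1)
    (hR0 : PowerSeries.constantCoeff Rs = 1) (P : QR κ) :
    PowerSeries.constantCoeff (ev Qs Rs P) = eval (fun _ => (1 : κ)) P := by
  induction P using MvPolynomial.induction_on with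
  | C a => simp
  | add p q hp hq => simp [hp, hq]
  | mul_X p i hp =>
    rw [map_mul, map_mul, map_mul, hp]
    fin_cases i <;> simp [hQ0, hR0]

/-- **`q`-expansion principle in a fixed weight.** -/
theorem ev_injective_of_iso [IsDomain κ] {Qs Rs : PowerSeries κ}
    (hQ0 : PowerSeries.constantCoeff Qs = 1) (hR0 : PowerSeries.constantCoeff Rs = 1)
    (hΔ : Qs ^ 3 - Rs ^ 2 ≠ 0) :
    ∀ (k : ℕ) (P : QR κ), Iso k P → ev Qs Rs P = 0 → P = 0 := by
  intro k
  induction k using Nat.strong_induction_on with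
  | _ k ih =>
    intro P hP hev
    obtain ⟨G, hG, hG0, e⟩ := hP.peel
    have h11 : eval (fun _ => (1 : κ)) P = 0 := by
      rw [← constantCoeff_ev hQ0 hR0, hev, map_zero]
    rw [h11, map_zero, zero_mul, zero_add] at e
    by_cases hk : k < 12
    · rw [e, hG0 hk, mul_zero]
    · have hG' : Iso (k - 12) G := hG _ (by omega)
      have : ev Qs Rs G = 0 := by
        have h2 : ev Qs Rs P = (Qs ^ 3 - Rs ^ 2) * ev Qs Rs G := by
          conv_lhs => rw [e]
          simp
        rw [hev] at h2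
        exact (mul_eq_zero.mp h2.symm).resolve_left hΔ
      rw [e, ih (k - 12) (by omega) G hG' this, mul_zero]

/-- two isobaric polynomials of the same weight with the same `q`-expansion are equal. -/
theorem eq_of_ev_eq [IsDomain κ] {Qs Rs : PowerSeries κ}
    (hQ0 : PowerSeries.constantCoeff Qs = 1) (hR0 : PowerSeries.constantCoeff Rs = 1)
    (hΔ : Qs ^ 3 - Rs ^ 2 ≠ 0) {k : ℕ} {P P' : QR κ} (hP : Iso k P) (hP' : Iso k P')
    (h : ev Qs Rs P = ev Qs Rs P') : P = P' := by
  have := ev_injective_of_iso hQ0 hR0 hΔ k (P - P') (hP.sub hP') (by rw [map_sub, h, sub_self])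
  exact sub_eq_zero.mp this

end

end Fermat.Agent.S16.SwD12
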