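/-
S16 / weak Swinnerton-Dyer (helper12).  Part 4: the algebraic core.

`κ` a field of characteristic `ℓ ≥ 5`; `Ps Qs Rs ∈ κ⟦q⟧` with constant terms `1` satisfying
Ramanujan's identities and `Qs³ ≠ Rs²`; `A ∈ κ[Q,R]` isobaric of weight `ℓ-1` with `A(Qs,Rs) = 1`
(the Hasse invariant).  Then `A` and `∂A` have no common prime factor, `A` has a simple prime
factor, and an isobaric `F` of weight `k` with `F(Qs,Rs)` a nonzero constant has `(ℓ-1) ∣ k`.
-/
import Fermat.Agent.S16.SwD12.Factor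

set_option autoImplicit false

namespace Fermat.Agent.S16.SwD12

open MvPolynomial

noncomputable section

section Mult

variable {κ : Type*} [Field κ]

/-- multiplicity of a prime drops by exactly one under `∂`. -/
lemma dd_mult {φ a : QR κ} (hφ : Prime φ) (hφ' : ¬ φ ∣ dd φ) {n : ℕ} (hn : (n : κ) ≠ 0)
    (h1 : φ ^ n ∣ a) (h2 : ¬ φ ^ (n + 1) ∣ a) : φ ^ (n - 1) ∣ dd a ∧ ¬ φ ^ n ∣ dd a := by
  obtain ⟨m, rfl⟩ : ∃ m, n = m + 1 := by
    rcases n with _ | m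
    · simp at hn
    · exact ⟨m, rfl⟩
  obtain ⟨ψ, rfl⟩ := h1
  have hψ : ¬ φ ∣ ψ := by
    rintro ⟨ψ', rfl⟩
    exact h2 ⟨ψ', by ring⟩
  have hdd : dd (φ ^ (m + 1) * ψ) =
      φ ^ m * (((m + 1 : ℕ) : QR κ) * dd φ * ψ + φ * dd ψ) := by
    rw [dd_mul, dd_pow]; simp only [Nat.add_sub_cancel]; rw [pow_succ]; ring
  refine ⟨by rw [hdd]; simp, ?_⟩
  rw [hdd, pow_succ, mul_dvd_mul_iff_left (pow_ne_zero m hφ.ne_zero)]
  intro hdvd
  have h3 : φ ∣ ((m + 1 : ℕ) : QR κ) * dd φ * ψ := by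
    have := (dvd_add_left (dvd_mul_right φ (dd ψ))).mp hdvd
    exact this
  have hu : IsUnit (((m + 1 : ℕ) : QR κ)) := by
    have : ((m + 1 : ℕ) : QR κ) = C ((m + 1 : ℕ) : κ) := by simp
    rw [this]
    exact (isUnit_iff_ne_zero.mpr hn).map C
  rw [mul_assoc, hu.dvd_mul_left] at h3
  rcases hφ.dvd_or_dvd h3 with h | h
  · exact hφ' h
  · exact hψ h

lemma le_totalDegree_pow {φ : QR κ} (hφ : φ ≠ 0) (h1 : 1 ≤ φ.totalDegree) (n : ℕ) :
    n ≤ (φ ^ n).totalDegree := by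
  induction n with
  | zero => simp
  | succ n ih =>
    rw [pow_succ, totalDegree_mul_of_isDomain (pow_ne_zero n hφ) hφ]; omega

lemma not_isUnit_totalDegree {φ : QR κ} (hφ : ¬ IsUnit φ) (h0 : φ ≠ 0) : 1 ≤ φ.totalDegree := by
  by_contra h
  have h' : φ.totalDegree = 0 := by omega
  have hC := totalDegree_eq_zero_iff_eq_C.mp h'
  apply hφ
  rw [hC]
  apply IsUnit.map C
  rw [isUnit_iff_ne_zero]
  intro hc
  rw [hc, map_zero] at hC
  exact h0 hC

end Mult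

section Main

variable {κ : Type*} [Field κ] {ℓ : ℕ} [hchar : CharP κ ℓ]
variable {Ps Qs Rs : PowerSeries κ}

/-- the hypotheses on the three power series. -/
structure RamanujanData (Ps Qs Rs : PowerSeries κ) : Prop where
  hP0 : PowerSeries.constantCoeff Ps = 1
  hQ0 : PowerSeries.constantCoeff Qs = 1
  hR0 : PowerSeries.constantCoeff Rs = 1
  hP : 12 * theta Ps = Ps ^ 2 - Qs
  hQ : 12 * theta Qs = 4 * (Ps * Qs - Rs)
  hR : 12 * theta Rs = 6 * (Ps * Rs - Qs ^ 2)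
  hΔ : Qs ^ 3 - Rs ^ 2 ≠ 0

variable (hD : RamanujanData Ps Qs Rs)
include hD

omit hchar hD in
lemma natCast_ps (n : ℕ) : ((n : ℕ) : PowerSeries κ) = PowerSeries.C (n : κ) := by
  simp

omit hD in
lemma cast_pred (hℓ : ℓ.Prime) : (((ℓ - 1 : ℕ) : ℕ) : κ) = -1 := by
  have h1 : 1 ≤ ℓ := hℓ.one_lt.le
  rw [Nat.cast_sub h1, CharP.cast_eq_zero κ ℓ]; simp

omit hD in
lemma cast_succ (_hℓ : ℓ.Prime) : (((ℓ + 1 : ℕ) : ℕ) : κ) = 1 := by
  rw [Nat.cast_add, CharP.cast_eq_zero κ ℓ]; simp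

/-- `∂A` has `q`-expansion `Ps`. -/
lemma ev_dd_hasse (hℓ : ℓ.Prime) {A : QR κ} (hA : Iso (ℓ - 1) A) (hA1 : ev Qs Rs A = 1) :
    ev Qs Rs (dd A) = Ps := by
  have := twelve_theta_ev_isobaric hD.hQ hD.hR hA
  rw [hA1, theta_one, mul_zero, natCast_ps, cast_pred hℓ] at this
  have h2 : ev Qs Rs (dd A) = -(PowerSeries.C (-1 : κ) * Ps * 1) := by
    linear_combination -this
  rw [h2]; simp

/-- `∂∂A = -Q·A`. -/
lemma dd_dd_hasse (hℓ : ℓ.Prime) {A : QR κ} (hA : Iso (ℓ - 1) A) (hA1 : ev Qs Rs A = 1) :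
    dd (dd A) = -(X 0 * A) := by
  have hB : Iso (ℓ - 1 + 2) (dd A) := hA.dd
  have hB' : Iso (ℓ + 1) (dd A) := Iso.of_eq hB (by have := hℓ.two_le; omega)
  have h1 := twelve_theta_ev_isobaric hD.hQ hD.hR hB'
  rw [ev_dd_hasse hD hℓ hA hA1, natCast_ps, cast_succ hℓ, hD.hP] at h1
  have h2 : ev Qs Rs (dd (dd A)) = ev Qs Rs (-(X 0 * A)) := by
    rw [map_neg, map_mul, hA1, ev_X0]
    have : (PowerSeries.C (1 : κ)) = 1 := by simp
    rw [this] at h1
    linear_combination -h1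
  have hw : Iso (ℓ + 1 + 2) (dd (dd A)) := hB'.dd
  have hw' : Iso (ℓ + 1 + 2) (-(X 0 * A)) :=
    Iso.of_eq (iso_X0.mul hA).neg (by have := hℓ.two_le; omega)
  exact eq_of_ev_eq hD.hQ0 hD.hR0 hD.hΔ hw hw' h2

omit hD in
lemma hasse_ne_zero {A : QR κ} (hA1 : ev Qs Rs A = 1) : A ≠ 0 := by
  rintro rfl
  rw [map_zero] at hA1
  exact zero_ne_one hA1

/-- a prime factor of the Hasse invariant does not divide its own derivative. -/
lemma not_dvd_dd_of_dvd_hasse (hℓ : ℓ.Prime) {A : QR κ} (hA : Iso (ℓ - 1) A)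
    (hA1 : ev Qs Rs A = 1) {φ : QR κ} (hφ : Prime φ) (hφA : φ ∣ A) : ¬ φ ∣ dd φ := by
  have hA0 := hasse_ne_zero hA1
  obtain ⟨w, hw, hφw⟩ := hA.of_dvd hA0 hφA
  have hw0 : 0 < w := by
    rcases Nat.eq_zero_or_pos w with h0 | h0
    · exfalso
      subst h0
      have hC := hφw.eq_C_of_weight_zero
      apply hφ.not_isUnit
      rw [hC]
      apply IsUnit.map C
      rw [isUnit_iff_ne_zero]
      intro hc
      rw [hc, map_zero] at hC
      exact hφ.ne_zero hC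
    · exact h0
  rintro ⟨lam, hlam⟩
  -- `∂φ = 0`
  have hdd0 : dd φ = 0 := by
    by_contra hne
    have h1 : Iso (w + 2) (φ * lam) := hlam ▸ hφw.dd
    obtain ⟨i, j, hij, hi, hj⟩ := h1.of_mul (hlam ▸ hne)
    have hiw : i = w := IsWeightedHomogeneous.inj_right hφ.ne_zero hi hφw
    have hj2 : j = 2 := by omega
    subst hj2
    rw [hj.eq_zero_of_weight_two, mul_zero] at hlam
    exact hne hlam
  have h2 := twelve_theta_ev_isobaric hD.hQ hD.hR hφw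
  rw [hdd0, map_zero, zero_add] at h2
  have h3 := congrArg PowerSeries.constantCoeff h2
  rw [map_mul, constantCoeff_theta, mul_zero, map_mul, map_mul, hD.hP0, natCast_ps,
    PowerSeries.constantCoeff_C, mul_one] at h3
  obtain ⟨ψ, rfl⟩ := hφA
  have hu : PowerSeries.constantCoeff (ev Qs Rs φ) ≠ 0 := by
    intro h0
    have := congrArg PowerSeries.constantCoeff hA1
    rw [map_mul, map_mul, h0, zero_mul, map_one] at this
    exact zero_ne_one this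
  have hwκ : (w : κ) ≠ 0 := by
    rw [Ne, CharP.cast_eq_zero_iff κ ℓ w]
    intro hdvd
    have := Nat.le_of_dvd hw0 hdvd
    have := hℓ.two_le
    omega
  exact (mul_ne_zero hwκ hu) h3.symm

/-- the Hasse invariant and its derivative have no common prime factor. -/
lemma not_dvd_dd_hasse (hℓ : ℓ.Prime) {A : QR κ} (hA : Iso (ℓ - 1) A)
    (hA1 : ev Qs Rs A = 1) {φ : QR κ} (hφ : Prime φ) (hφA : φ ∣ A) : ¬ φ ∣ dd A := by
  intro hφB
  have hA0 := hasse_ne_zero hA1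
  have hφ' := not_dvd_dd_of_dvd_hasse hD hℓ hA hA1 hφ hφA
  have hfin : FiniteMultiplicity φ A := FiniteMultiplicity.of_not_isUnit hφ.not_isUnit hA0
  set n := multiplicity φ A with hn
  have h1 : φ ^ n ∣ A := pow_multiplicity_dvd φ A
  have h2 : ¬ φ ^ (n + 1) ∣ A := hfin.not_pow_dvd_of_multiplicity_lt (Nat.lt_succ_self _)
  have hn1 : 1 ≤ n := by
    by_contra h
    have : n = 0 := by omega
    rw [this, zero_add, pow_one] at h2
    exact h2 hφA
  -- degree bound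
  have hnℓ : n < ℓ := by
    obtain ⟨ψ, hψ⟩ := h1
    have hψ0 : ψ ≠ 0 := by rintro rfl; rw [mul_zero] at hψ; exact hA0 hψ
    have hd : A.totalDegree = (φ ^ n).totalDegree + ψ.totalDegree := by
      conv_lhs => rw [hψ]
      exact totalDegree_mul_of_isDomain (pow_ne_zero n hφ.ne_zero) hψ0
    have := le_totalDegree_pow hφ.ne_zero (not_isUnit_totalDegree hφ.not_isUnit hφ.ne_zero) n
    have := hA.totalDegree_le
    omega
  have hcast : ∀ m : ℕ, 0 < m → m < ℓ → (m : κ) ≠ 0 := by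
    intro m hm0 hmℓ
    rw [Ne, CharP.cast_eq_zero_iff κ ℓ m]
    intro hdvd
    have := Nat.le_of_dvd hm0 hdvd
    omega
  obtain ⟨h3, h4⟩ := dd_mult hφ hφ' (hcast n (by omega) hnℓ) h1 h2
  have hn2 : 2 ≤ n := by
    by_contra h
    have : n = 1 := by omega
    rw [this, pow_one] at h4
    exact h4 hφB
  have h4' : ¬ φ ^ (n - 1 + 1) ∣ dd A := by
    have : n - 1 + 1 = n := by omega
    rw [this]; exact h4
  obtain ⟨_, h6⟩ := dd_mult hφ hφ' (hcast (n - 1) (by omega) (by omega)) h3 h4'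
  apply h6
  rw [dd_dd_hasse hD hℓ hA hA1]
  apply Dvd.dvd.neg_right
  apply Dvd.dvd.mul_left
  exact (pow_dvd_pow φ (by omega)).trans h1

omit hD hchar in
lemma hasse_not_isUnit (hℓ : ℓ.Prime) {A : QR κ} (hA : Iso (ℓ - 1) A)
    (hA1 : ev Qs Rs A = 1) : ¬ IsUnit A := by
  intro hu
  obtain ⟨r, _, hr⟩ := (isUnit_iff_eq_C_of_isReduced).mp hu
  have h0 : Iso 0 A := hr ▸ iso_C r
  have := IsWeightedHomogeneous.inj_right (hasse_ne_zero hA1) h0 hA
  have := hℓ.two_le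
  omega

/-- the Hasse invariant has a simple prime factor. -/
lemma exists_simple_prime_factor (hℓ : ℓ.Prime) {A : QR κ} (hA : Iso (ℓ - 1) A)
    (hA1 : ev Qs Rs A = 1) : ∃ φ : QR κ, Prime φ ∧ φ ∣ A ∧ ¬ φ ^ 2 ∣ A := by
  obtain ⟨φ, hirr, hφA⟩ := WfDvdMonoid.exists_irreducible_factor
    (hasse_not_isUnit hℓ hA hA1) (hasse_ne_zero hA1)
  have hφ : Prime φ := hirr.prime
  refine ⟨φ, hφ, hφA, ?_⟩
  rintro ⟨ψ, hψ⟩
  apply not_dvd_dd_hasse hD hℓ hA hA1 hφ hφA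
  rw [hψ, dd_mul, dd_pow]
  exact ⟨(2 : ℕ) * dd φ * ψ + φ * dd ψ, by simp only [Nat.add_one_sub_one, pow_one]; ring⟩

/-- **Weak Swinnerton-Dyer, algebraic core.**  An isobaric polynomial of weight `k` whose
`q`-expansion is a nonzero constant has `(ℓ - 1) ∣ k`. -/
theorem pred_dvd_weight (hℓ : ℓ.Prime) {A : QR κ} (hA : Iso (ℓ - 1) A)
    (hA1 : ev Qs Rs A = 1) {k : ℕ} {F : QR κ} (hF : Iso k F) {c : κ} (hc : c ≠ 0)
    (hFc : ev Qs Rs F = PowerSeries.C c) : (ℓ - 1) ∣ k := by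
  -- `F^(ℓ-1) = c^(ℓ-1) A^k`
  have h1 : Iso (k * (ℓ - 1)) (F ^ (ℓ - 1)) := Iso.of_eq (hF.pow (ℓ - 1)) (by simp [mul_comm])
  have h2 : Iso (k * (ℓ - 1)) (C (c ^ (ℓ - 1)) * A ^ k) :=
    Iso.of_eq ((iso_C _).mul (hA.pow k)) (by simp)
  have heq : F ^ (ℓ - 1) = C (c ^ (ℓ - 1)) * A ^ k := by
    apply eq_of_ev_eq hD.hQ0 hD.hR0 hD.hΔ h1 h2
    rw [map_pow, hFc, map_mul, map_pow (ev Qs Rs) A, hA1, one_pow, mul_one, ev_C, map_pow]
  obtain ⟨φ, hφ, hφA, hφ2⟩ := exists_simple_prime_factor hD hℓ hA hA1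
  have hF0 : F ≠ 0 := by
    rintro rfl
    rw [map_zero] at hFc
    exact hc (by simpa using (PowerSeries.ext_iff.mp hFc 0).symm)
  have hfin : FiniteMultiplicity φ F := FiniteMultiplicity.of_not_isUnit hφ.not_isUnit hF0
  have e1 : emultiplicity φ (F ^ (ℓ - 1)) = ((ℓ - 1 : ℕ) : ℕ∞) * (multiplicity φ F : ℕ∞) := by
    rw [emultiplicity_pow hφ, hfin.emultiplicity_eq_multiplicity]
  have hA1' : emultiplicity φ A = 1 := by
    have : emultiplicity φ A = ((1 : ℕ) : ℕ∞) :=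
      emultiplicity_eq_coe.mpr ⟨by simpa using hφA, by simpa using hφ2⟩
    simpa using this
  have hcu : IsUnit (C (c ^ (ℓ - 1)) : QR κ) :=
    (isUnit_iff_ne_zero.mpr (pow_ne_zero _ hc)).map C
  have e2 : emultiplicity φ (C (c ^ (ℓ - 1)) * A ^ k) = (k : ℕ∞) := by
    rw [emultiplicity_mul hφ, emultiplicity_of_isUnit_right hφ.not_isUnit hcu, zero_add,
      emultiplicity_pow hφ, hA1', mul_one]
  rw [heq, e2] at e1
  have : (k : ℕ∞) = (((ℓ - 1) * multiplicity φ F : ℕ) : ℕ∞) := by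
    rw [e1]; push_cast; rfl
  have hk : k = (ℓ - 1) * multiplicity φ F := by exact_mod_cast this
  exact ⟨_, hk⟩

end Main

end

end Fermat.Agent.S16.SwD12
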