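/-
S16 / weak Swinnerton-Dyer (helper12).  Part 3: divisors of isobaric polynomials are isobaric
(via the grading homomorphism `Φ : Q ↦ Q T⁴, R ↦ R T⁶` into `κ[Q,R][T]`).
-/
import Fermat.Agent.S16.SwD12.Iso

set_option autoImplicit false

namespace Fermat.Agent.S16.SwD12

open MvPolynomial

noncomputable section

variable {κ : Type*} [CommRing κ]

/-- the grading homomorphism. -/
def Phi : QR κ →ₐ[κ] Polynomial (QR κ) :=
  aeval fun i => Polynomial.C (X i) * Polynomial.X ^ wt i

@[simp] lemma Phi_X (i : Fin 2) : Phi (X i : QR κ) = Polynomial.C (X i) * Polynomial.X ^ wt i := by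
  simp [Phi]

@[simp] lemma Phi_C (a : κ) : Phi (C a : QR κ) = Polynomial.C (C a) := by
  simp [Phi]

lemma eval_one_Phi (P : QR κ) : Polynomial.eval 1 (Phi P) = P := by
  induction P using MvPolynomial.induction_on with
  | C a => simp
  | add p q hp hq => simp [hp, hq]
  | mul_X p i hp => simp [hp]

lemma Phi_monomial (d : Fin 2 →₀ ℕ) (r : κ) :
    Phi (monomial d r : QR κ) =
      Polynomial.C (monomial d r) * Polynomial.X ^ (4 * d 0 + 6 * d 1) := by
  have hmon : (monomial d r : QR κ) = C r * (X 0 ^ d 0 * X 1 ^ d 1) := by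
    rw [monomial_eq, Finsupp.prod_fintype _ _ (by intro i; simp), Fin.prod_univ_two]
  rw [hmon]
  simp only [map_mul, map_pow, Phi_C, Phi_X, wt_zero, wt_one]
  ring

lemma coeff_Phi (P : QR κ) (i : ℕ) (d₀ : Fin 2 →₀ ℕ) :
    coeff d₀ ((Phi P).coeff i) = if 4 * d₀ 0 + 6 * d₀ 1 = i then coeff d₀ P else 0 := by
  classical
  induction P using MvPolynomial.induction_on' with
  | monomial d r =>
    rw [Phi_monomial, Polynomial.coeff_C_mul_X_pow, coeff_monomial]
    by_cases hd : d = d₀
    · subst hd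
      by_cases hi : i = 4 * d 0 + 6 * d 1
      · simp [hi]
      · rw [if_neg hi, if_neg (fun h => hi h.symm)]; simp
    · rw [if_neg hd]
      split_ifs <;> simp [coeff_monomial, hd]
  | add p q hp hq =>
    rw [map_add, Polynomial.coeff_add, coeff_add, hp, hq, coeff_add]
    split_ifs <;> simp

lemma Phi_of_iso {k : ℕ} {P : QR κ} (h : Iso k P) :
    Phi P = Polynomial.C P * Polynomial.X ^ k := by
  induction h using IsWeightedHomogeneous.induction_on with
  | zero => simp
  | add p q hp hq ihp ihq => rw [map_add, ihp, ihq, map_add, add_mul]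
  | monomial d r hr =>
    rw [weight_eq] at hr
    rw [Phi_monomial, hr]

lemma iso_of_Phi {k : ℕ} {P P' : QR κ} (h : Phi P = Polynomial.C P' * Polynomial.X ^ k) :
    Iso k P := by
  intro d hd
  rw [weight_eq]
  by_contra hne
  have := coeff_Phi P (4 * d 0 + 6 * d 1) d
  rw [if_pos rfl, h, Polynomial.coeff_C_mul_X_pow, if_neg hne, coeff_zero] at this
  exact hd this.symm

/-- in a polynomial ring over a domain, a factor of a monomial is a monomial. -/
lemma eq_C_mul_X_pow_of_mul_eq {D : Type*} [CommRing D] [IsDomain D] {a b : Polynomial D} {c : D}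
    {k : ℕ} (hc : c ≠ 0) (h : a * b = Polynomial.C c * Polynomial.X ^ k) :
    ∃ (i : ℕ) (a₀ : D), a = Polynomial.C a₀ * Polynomial.X ^ i := by
  have hne : Polynomial.C c * Polynomial.X ^ k ≠ (0 : Polynomial D) := by
    rw [Polynomial.C_mul_X_pow_eq_monomial]
    exact fun h0 => hc ((Polynomial.monomial_eq_zero_iff c k).mp h0)
  have ha : a ≠ 0 := fun h0 => hne (by rw [← h, h0, zero_mul])
  have hb : b ≠ 0 := fun h0 => hne (by rw [← h, h0, mul_zero])
  have h1 : a.natDegree + b.natDegree = k := by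
    rw [← Polynomial.natDegree_mul ha hb, h, Polynomial.natDegree_C_mul_X_pow k c hc]
  have h2 : a.natTrailingDegree + b.natTrailingDegree = k := by
    rw [← Polynomial.natTrailingDegree_mul ha hb, h, Polynomial.C_mul_X_pow_eq_monomial,
      Polynomial.natTrailingDegree_monomial hc]
  have h3 := Polynomial.natTrailingDegree_le_natDegree (p := a)
  have h4 := Polynomial.natTrailingDegree_le_natDegree (p := b)
  have h5 : a.natTrailingDegree = a.natDegree := by omega
  refine ⟨a.natDegree, a.coeff a.natDegree, ?_⟩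
  ext n
  rw [Polynomial.coeff_C_mul_X_pow]
  split_ifs with hn
  · rw [hn]
  · rcases lt_or_gt_of_ne hn with hlt | hgt
    · exact Polynomial.coeff_eq_zero_of_lt_natTrailingDegree (by omega)
    · exact Polynomial.coeff_eq_zero_of_natDegree_lt hgt

/-- **Divisors of isobaric polynomials are isobaric.** -/
theorem Iso.of_mul [IsDomain κ] {k : ℕ} {φ ψ : QR κ} (h : Iso k (φ * ψ)) (h0 : φ * ψ ≠ 0) :
    ∃ i j, i + j = k ∧ Iso i φ ∧ Iso j ψ := by
  have hΦ := Phi_of_iso h
  rw [map_mul] at hΦ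
  obtain ⟨i, a₀, ha⟩ := eq_C_mul_X_pow_of_mul_eq h0 hΦ
  rw [mul_comm] at hΦ
  obtain ⟨j, b₀, hb⟩ := eq_C_mul_X_pow_of_mul_eq h0 hΦ
  have hi : Iso i φ := iso_of_Phi ha
  have hj : Iso j ψ := iso_of_Phi hb
  exact ⟨i, j, IsWeightedHomogeneous.inj_right h0 (hi.mul hj) h, hi, hj⟩

lemma Iso.of_dvd [IsDomain κ] {k : ℕ} {φ P : QR κ} (h : Iso k P) (h0 : P ≠ 0) (hd : φ ∣ P) :
    ∃ i, i ≤ k ∧ Iso i φ := by
  obtain ⟨ψ, rfl⟩ := hd
  obtain ⟨i, j, hij, hi, _⟩ := h.of_mul h0
  exact ⟨i, by omega, hi⟩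

end

end Fermat.Agent.S16.SwD12
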